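import Fermat.Agent.AVG.Gauss
import Fermat.Agent.FunField.AlgClosed

/-!
# S26 block D4b: the places of `E/k(u)` over `u = ∞`
-/

set_option autoImplicit false

noncomputable section

open AlgebraicCurve Module IntermediateField
open Fermat.Agent.FunField Fermat.Agent.FunField.PlaceLemmas

namespace Fermat.Agent.AVDc

variable {k E : Type*} [Field k] [Field E] [Algebra k E]

/-- the residue map of a place over an algebraically closed field, with values in `k` -/
def resP [IsAlgClosed k] [IsFF k E] (p : Place k E) : p.toValuationSubring →ₐ[k] k :=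
  ((AlgEquiv.ofBijective (Algebra.ofId k p.ResidueField) (residue_bijective p)).symm.toAlgHom).comp
    (IsScalarTower.toAlgHom k p.toValuationSubring p.ResidueField)

theorem resP_surjective [IsAlgClosed k] [IsFF k E] (p : Place k E) :
    Function.Surjective (resP p) := by
  intro c
  exact ⟨algebraMap k _ c, (resP p).commutes c⟩

theorem algebraMap_resP [IsAlgClosed k] [IsFF k E] (p : Place k E) (x : p.toValuationSubring) :
    algebraMap k p.ResidueField (resP p x) = IsLocalRing.residue _ x :=
  (AlgEquiv.ofBijective (Algebra.ofId k p.ResidueField) (residue_bijective p)).apply_symm_apply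
    (IsLocalRing.residue _ x)

theorem resP_eq_zero_iff [IsAlgClosed k] [IsFF k E] (p : Place k E) (x : p.toValuationSubring) :
    resP p x = 0 ↔ ¬ IsUnit x := by
  have h1 : resP p x = 0 ↔ IsLocalRing.residue p.toValuationSubring x = 0 := by
    rw [← algebraMap_resP]
    exact (map_eq_zero_iff _ (algebraMap k p.ResidueField).injective).symm
  rw [h1, IsLocalRing.residue_eq_zero_iff, IsLocalRing.mem_maximalIdeal]
  rfl

/-- the residue datum of a place -/
def rdP [IsAlgClosed k] [IsFF k E] (p : Place k E) : AVG.RDk k E k where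
  A := p.toValuationSubring
  π := (resP p : p.toValuationSubring →+* k)
  mem := p.algebraMap_mem'
  π_alg c := (resP p).commutes c
  surj := resP_surjective p
  ker := resP_eq_zero_iff p

variable (k) in
/-- the places of `E/k` with `u = ∞` -/
abbrev InfPl (u : E) : Type _ := {p : Place k E // u ∉ p.toValuationSubring}

theorem not_mem_iff (p : Place k E) (u : E) : u ∉ p.toValuationSubring ↔ p.ord u < 0 := by
  by_cases hu : u = 0
  · subst hu
    rw [p.ord_zero]
    simp
  · rw [mem_iff_ord_nonneg p hu, not_le]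

theorem finite_infPl [IsFF k E] (u : E) : Finite (InfPl k u) := by
  by_cases hu : u = 0
  · subst hu
    have : IsEmpty (InfPl k (0 : E)) := ⟨fun p => p.2 (zero_mem _)⟩
    infer_instance
  have h := (finite_zeros (K := k) u⁻¹ (inv_ne_zero hu)).to_subtype
  refine Finite.of_injective
    (fun p : InfPl k u => (⟨p.1, ?_⟩ : {v : Place k E | 0 < v.ord u⁻¹})) ?_
  · show 0 < p.1.ord u⁻¹
    rw [p.1.ord_inv]
    have := (not_mem_iff p.1 u).mp p.2
    omega
  · intro p q hpq
    exact Subtype.ext (congrArg (fun x => x.1) hpq)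

/-- the multiplicity of a place over `u = ∞` -/
def eInf {u : E} (p : InfPl k u) : ℕ := (-(p.1.ord u)).toNat

theorem coe_eInf {u : E} (p : InfPl k u) : (eInf p : ℤ) = -(p.1.ord u) := by
  have := (not_mem_iff p.1 u).mp p.2
  rw [eInf, Int.toNat_of_nonneg (by omega)]

theorem eInf_pos {u : E} (p : InfPl k u) : 0 < eInf p := by
  have h1 := (not_mem_iff p.1 u).mp p.2
  have h2 := coe_eInf p
  omega

theorem sum_eInf [IsAlgClosed k] [IsFF k E] {u : E} (hu : Transcendental k u)
    [Fintype (InfPl k u)] : ∑ p : InfPl k u, eInf p = finrank k⟮u⟯ E := by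
  classical
  have h := sum_ord_inv_eq_finrank (K := k) hu
  have h2 : (∑ p : InfPl k u, (eInf p : ℤ)) = (finrank k⟮u⟯ E : ℤ) := by
    rw [← h]
    refine Finset.sum_bij (fun p _ => p.1) ?_ ?_ ?_ ?_
    · intro p _
      rw [Finsupp.mem_support_iff, zeroDiv_apply, p.1.ord_inv]
      have := (not_mem_iff p.1 u).mp p.2
      have := le_max_left (-(p.1.ord u)) 0
      omega
    · intro p _ q _ hpq
      exact Subtype.ext hpq
    · intro v hv
      rw [Finsupp.mem_support_iff, zeroDiv_apply, v.ord_inv] at hv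
      refine ⟨⟨v, (not_mem_iff v u).mpr ?_⟩, Finset.mem_univ _, rfl⟩
      by_contra hcon
      apply hv
      rw [max_eq_right]
      omega
    · intro p _
      rw [coe_eInf, p.1.ord_inv]
  exact_mod_cast h2

/-- every valuation ring of `E` containing `k` but not `u` is on the list. -/
theorem exists_infPl [IsFF k E] {u : E} (V : ValuationSubring E)
    (hk : ∀ c : k, algebraMap k E c ∈ V) (hu : u ∉ V) :
    ∃ p : InfPl k u, p.1.toValuationSubring = V :=
  ⟨⟨placeOfValuationSubring V hk (fun h => hu (h ▸ ValuationSubring.mem_top u)), hu⟩, rfl⟩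

/-- every nontrivial valuation ring of `E` containing `k` is a place -/
theorem exists_place_of_ne_top [IsFF k E] (V : ValuationSubring E)
    (hk : ∀ c : k, algebraMap k E c ∈ V) (hV : V ≠ ⊤) :
    ∃ p : Place k E, p.toValuationSubring = V :=
  ⟨placeOfValuationSubring V hk hV, rfl⟩

/-- `u⁻¹ = unit * ϖ ^ e(p)` -/
theorem inv_eq_unit_mul_pow {u : E} (p : InfPl k u) {ϖ : p.1.toValuationSubring}
    (hϖ : Irreducible ϖ) : ∃ v : p.1.toValuationSubringˣ,
      u⁻¹ = ((v : p.1.toValuationSubring) : E) * (ϖ : E) ^ eInf p := by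
  have hu0 : u ≠ 0 := by
    obtain ⟨q, hq⟩ := p
    intro h0
    exact hq (h0 ▸ zero_mem _)
  obtain ⟨v, hv⟩ := p.1.exists_unit_mul_zpow (inv_ne_zero hu0) hϖ
  refine ⟨v, ?_⟩
  rw [hv, p.1.ord_inv, ← coe_eInf, zpow_natCast]

theorem inv_mem {u : E} (p : InfPl k u) : u⁻¹ ∈ p.1.toValuationSubring :=
  (p.1.toValuationSubring.mem_or_inv_mem u).resolve_left p.2

/-- `(u⁻¹) = 𝔪 ^ e(p)` -/
theorem span_inv_eq {u : E} (p : InfPl k u) :
    Ideal.span {(⟨u⁻¹, inv_mem p⟩ : p.1.toValuationSubring)} =
      IsLocalRing.maximalIdeal p.1.toValuationSubring ^ eInf p := by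
  obtain ⟨ϖ, hϖ⟩ := IsDiscreteValuationRing.exists_irreducible p.1.toValuationSubring
  obtain ⟨v, hv⟩ := inv_eq_unit_mul_pow p hϖ
  rw [hϖ.maximalIdeal_eq, Ideal.span_singleton_pow]
  have : (⟨u⁻¹, inv_mem p⟩ : p.1.toValuationSubring) = v * ϖ ^ eInf p := by
    apply Subtype.ext
    rw [MulMemClass.coe_mul, SubmonoidClass.coe_pow]
    exact hv
  rw [this]
  exact Ideal.span_singleton_mul_left_unit v.isUnit _

end Fermat.Agent.AVDc
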