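import Fermat.Agent.AVDc.Resid

/-!
# Classification of the valuation rings of `M ⊇ F₀(Φ)` with `u₁ - u₂` not a unit
-/

set_option autoImplicit false
set_option linter.unusedSectionVars false

noncomputable section

universe u

open AlgebraicCurve Module IntermediateField
open Fermat.Agent.FunField Fermat.Agent.FunField.PlaceLemmas Fermat.Agent.BaseChangeFF

namespace Fermat.Agent.AVDc

open Algebra in
theorem exists_closed_T {k F₀ κ' : Type u} [Field k] [Field F₀] [Field κ'] [Algebra k F₀]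
    [Algebra F₀ κ'] [Algebra k κ'] [IsScalarTower k F₀ κ'] (t : κ') (ht : IsAlgebraic F₀ t) :
    ∃ T : IntermediateField k κ', t ∈ T ∧ Algebra.trdeg k T ≤ 1 ∧
      (∀ z, IsAlgebraic T z → z ∈ T) ∧ ∀ z ∈ T, IsAlgebraic F₀ z := by
  let T₀ : IntermediateField k⟮t⟯ κ' := algebraicClosure k⟮t⟯ κ'
  let T : IntermediateField k κ' := T₀.restrictScalars k
  have hmem : ∀ z : κ', z ∈ T ↔ IsAlgebraic k⟮t⟯ z := fun z => mem_algebraicClosure_iff
  have hgen : t ∈ k⟮t⟯ := mem_adjoin_simple_self k t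
  refine ⟨T, ?_, ?_, ?_, ?_⟩
  · rw [hmem]
    exact isAlgebraic_algebraMap (⟨t, hgen⟩ : k⟮t⟯)
  · have f1 : FaithfulSMul k⟮t⟯ T₀ :=
      (faithfulSMul_iff_algebraMap_injective _ _).mpr (algebraMap k⟮t⟯ T₀).injective
    have f2 : FaithfulSMul k k⟮t⟯ :=
      (faithfulSMul_iff_algebraMap_injective _ _).mpr (algebraMap k k⟮t⟯).injective
    have h1 := trdeg_add_eq k k⟮t⟯ (A := T₀)
    have h2 : Algebra.trdeg k⟮t⟯ T₀ = 0 := by
      have := algebraicClosure.isAlgebraic k⟮t⟯ κ'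
      exact trdeg_eq_zero
    rw [h2, add_zero] at h1
    have h3 := trdeg_adjoin_simple_le (K := k) t
    rw [h1] at h3
    exact h3
  · intro z hz
    have h1 : IsAlgebraic T₀ z := hz
    have := algebraicClosure.isAlgebraic k⟮t⟯ κ'
    exact mem_algebraicClosure_iff.mpr (h1.restrictScalars k⟮t⟯)
  · intro z hz
    rw [hmem] at hz
    let S : IntermediateField F₀ κ' := algebraicClosure F₀ κ'
    have htS : t ∈ S := mem_algebraicClosure_iff.mpr ht
    have hle : ∀ c ∈ k⟮t⟯, c ∈ S := by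
      have : k⟮t⟯ ≤ S.restrictScalars k := by
        rw [adjoin_simple_le_iff]
        exact htS
      exact fun c hc => this hc
    let f : k⟮t⟯ →+* S :=
      { toFun := fun c => ⟨c, hle c c.2⟩
        map_one' := by ext; simp
        map_mul' := by intro a b; ext; simp
        map_zero' := by ext; simp
        map_add' := by intro a b; ext; simp }
    have h1 : IsAlgebraic S z := IsAlgebraic.ringHom_of_comp_eq (S := S) f (RingHom.id κ')
      hz f.injective (by ext c; rfl)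
    have := algebraicClosure.isAlgebraic F₀ κ'
    exact h1.restrictScalars F₀

variable {k E F₀ L M : Type u} [Field k] [Field E] [Field F₀] [Field L] [Field M]
  [Algebra k E] [Algebra k F₀] [Algebra k L] [Algebra k M] [Algebra E L] [Algebra F₀ L]
  [Algebra F₀ M] [IsScalarTower k E L] [IsScalarTower k F₀ L] [IsScalarTower k F₀ M]

variable (F₀) in
/-- Hypothesis (Z) -/
def HZ (i₁ i₂ : E →ₐ[k] M) (Φ : M) : Prop :=
  ∀ (V : ValuationSubring M) (κ' : Type u) [Field κ'] [Algebra k κ'] [Algebra F₀ κ']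
    [IsScalarTower k F₀ κ'] (r : V →+* κ') [IsLocalHom r] (hF : ∀ c : F₀, algebraMap F₀ M c ∈ V),
    (∀ c : F₀, r ⟨algebraMap F₀ M c, hF c⟩ = algebraMap F₀ κ' c) →
    (∀ x ∈ F₀⟮Φ⟯, x ∈ V) → ∀ T : IntermediateField k κ',
    (∀ x (h : i₁ x ∈ V), r ⟨i₁ x, h⟩ ∈ T) → (∀ x (h : i₂ x ∈ V), r ⟨i₂ x, h⟩ ∈ T) →
    Algebra.trdeg k T ≤ 1 → (∀ t ∈ T, IsAlgebraic F₀ t) → False

/-- the residue embedding -/
def resEmb {V : ValuationSubring M} {κ' : Type*} [Field κ'] [Algebra k κ'] (i : E →ₐ[k] M)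
    (r : V →+* κ') (hk : ∀ c : k, algebraMap k M c ∈ V)
    (hr : ∀ c : k, r ⟨algebraMap k M c, hk c⟩ = algebraMap k κ' c) (hi : ∀ x, i x ∈ V) :
    E →ₐ[k] κ' where
  toFun x := r ⟨i x, hi x⟩
  map_one' := by
    rw [← map_one r]; congr 1; ext; simp
  map_mul' x y := by
    rw [← map_mul r]; congr 1; ext; simp
  map_zero' := by
    rw [← map_zero r]; congr 1; ext; simp
  map_add' x y := by
    rw [← map_add r]; congr 1; ext; simp
  commutes' c := by
    rw [← hr]; congr 1; ext; exact i.commutes c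

theorem classify [IsAlgClosed k] [IsFF k E] [IsFF F₀ L] {u : E} [Algebra.IsAlgebraic k⟮u⟯ E]
    (a₁ a₂ : L →ₐ[k] M) (hj₁ : ∀ c : F₀, a₁ (algebraMap F₀ L c) = algebraMap F₀ M c)
    (hj₂ : ∀ c : F₀, a₂ (algebraMap F₀ L c) = algebraMap F₀ M c) {Φ : M}
    (hZ : HZ F₀ (a₁.comp (IsScalarTower.toAlgHom k E L)) (a₂.comp (IsScalarTower.toAlgHom k E L)) Φ)
    (V : ValuationSubring M) (hκ : ∀ x ∈ F₀⟮Φ⟯, x ∈ V)
    (hlam : a₁ (algebraMap E L u) - a₂ (algebraMap E L u) ∉ V ∨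
      a₁ (algebraMap E L u) - a₂ (algebraMap E L u) ∈ V.nonunits) :
    (∀ c, a₂ c ∈ V) ∨ ((∀ c, a₁ c ∈ V) ∧ ¬ ∀ x : E, a₂ (algebraMap E L x) ∈ V) := by
  classical
  set i₁ := a₁.comp (IsScalarTower.toAlgHom k E L) with hi₁
  set i₂ := a₂.comp (IsScalarTower.toAlgHom k E L) with hi₂
  have hF : ∀ c : F₀, algebraMap F₀ M c ∈ V := fun c => hκ _ (IntermediateField.algebraMap_mem _ c)
  have hk : ∀ c : k, algebraMap k M c ∈ V := by
    intro c
    rw [IsScalarTower.algebraMap_apply k F₀ M]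
    exact hF _
  let κ' := IsLocalRing.ResidueField V
  let r : V →+* κ' := IsLocalRing.residue V
  let algF : Algebra F₀ κ' := (r.comp ((algebraMap F₀ M).codRestrict V.toSubring hF)).toAlgebra
  let algk : Algebra k κ' := ((algebraMap F₀ κ').comp (algebraMap k F₀)).toAlgebra
  have tow : IsScalarTower k F₀ κ' := IsScalarTower.of_algebraMap_eq fun _ => rfl
  have hloc : IsLocalHom r := inferInstanceAs (IsLocalHom (IsLocalRing.residue V))
  have hrF : ∀ c : F₀, r ⟨algebraMap F₀ M c, hF c⟩ = algebraMap F₀ κ' c := fun _ => rfl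
  have hrk : ∀ c : k, r ⟨algebraMap k M c, hk c⟩ = algebraMap k κ' c := by
    intro c
    show _ = algebraMap F₀ κ' (algebraMap k F₀ c)
    rw [← hrF]
    congr 1
    ext
    exact IsScalarTower.algebraMap_apply k F₀ M c
  have hconst : ∀ (i : E →ₐ[k] M) (T : IntermediateField k κ'), (¬ ∀ x, i x ∈ V) →
      ∀ x (h : i x ∈ V), r ⟨i x, h⟩ ∈ T := by
    intro i T hne x h
    obtain ⟨c, hc⟩ := res_const i hk hne h
    rw [sub_mem_nonunits_iff_res r h (hk c), hrk] at hc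
    rw [hc]
    exact T.algebraMap_mem c
  have halg : ∀ (i : E →ₐ[k] M) (T : IntermediateField k κ') (_ : ∀ z, IsAlgebraic T z → z ∈ T)
      (hi : ∀ x, i x ∈ V) (_ : r ⟨i u, hi u⟩ ∈ T), ∀ x (h : i x ∈ V), r ⟨i x, h⟩ ∈ T := by
    intro i T hT hi hu x h
    exact res_alg (resEmb i r hk hrk hi) T hT hu x
  by_cases h2 : ∀ x, i₂ x ∈ V
  · left
    by_contra hne
    have ht : IsAlgebraic F₀ (r ⟨i₂ u, h2 u⟩) := by
      have h3 : ∀ c : F₀, (a₂ : L →+* M) (algebraMap F₀ L c) ∈ V := by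
        intro c
        show a₂ (algebraMap F₀ L c) ∈ V
        rw [hj₂]; exact hF c
      refine res_algebraic_of_ff (F₀ := F₀) (a₂ : L →+* M) h3 hne r (fun c => ?_) (h2 u)
      rw [← hrF]
      congr 1
      ext
      exact hj₂ c
    obtain ⟨T, htT, hT1, hT2, hT3⟩ := exists_closed_T (k := k) _ ht
    refine hZ V κ' r hF hrF hκ T ?_ (halg i₂ T hT2 h2 htT) hT1 hT3
    by_cases h1 : ∀ x, i₁ x ∈ V
    · apply halg i₁ T hT2 h1
      have h3 : i₁ u - i₂ u ∈ V.nonunits := by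
        rcases hlam with h | h
        · exact absurd (sub_mem (h1 u) (h2 u)) h
        · exact h
      rw [sub_mem_nonunits_iff_res r (h1 u) (h2 u)] at h3
      rw [h3]
      exact htT
    · exact hconst i₁ T h1
  · right
    by_cases h1 : ∀ x, i₁ x ∈ V
    · refine ⟨?_, h2⟩
      by_contra hne
      have ht : IsAlgebraic F₀ (r ⟨i₁ u, h1 u⟩) := by
        have h3 : ∀ c : F₀, (a₁ : L →+* M) (algebraMap F₀ L c) ∈ V := by
          intro c
          show a₁ (algebraMap F₀ L c) ∈ V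
          rw [hj₁]; exact hF c
        refine res_algebraic_of_ff (F₀ := F₀) (a₁ : L →+* M) h3 hne r (fun c => ?_) (h1 u)
        rw [← hrF]
        congr 1
        ext
        exact hj₁ c
      obtain ⟨T, htT, hT1, hT2, hT3⟩ := exists_closed_T (k := k) _ ht
      exact hZ V κ' r hF hrF hκ T (halg i₁ T hT2 h1 htT) (hconst i₂ T h2) hT1 hT3
    · exfalso
      obtain ⟨T, htT, hT1, hT2, hT3⟩ := exists_closed_T (k := k) (F₀ := F₀) (0 : κ')
        isAlgebraic_zero
      exact hZ V κ' r hF hrF hκ T (hconst i₁ T h1) (hconst i₂ T h2) hT1 hT3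

end Fermat.Agent.AVDc
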