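import Fermat.Agent.AVDc.Resid

/-!
# Residue degree over `F₀(Φ)`
-/

set_option autoImplicit false
set_option linter.unusedSectionVars false

noncomputable section

universe u

open AlgebraicCurve Module IntermediateField
open Fermat.Agent.FunField Fermat.Agent.FunField.PlaceLemmas Fermat.Agent.BaseChangeFF

namespace Fermat.Agent.AVDc

/-- `ord` only depends on the valuation ring -/
theorem ord_congr {K K' F : Type*} [Field K] [Field K'] [Field F] [Algebra K F] [Algebra K' F]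
    (v : Place K F) (v' : Place K' F) (h : v.toValuationSubring = v'.toValuationSubring) (f : F) :
    v.ord f = v'.ord f := by
  obtain ⟨V, a, b, c⟩ := v
  obtain ⟨V', a', b', c'⟩ := v'
  obtain rfl : V = V' := h
  rfl

variable {F₀ L M : Type*} [Field F₀] [Field L] [Field M] [Algebra F₀ L] [Algebra F₀ M]

section

variable (a : L →ₐ[F₀] M) {V : ValuationSubring M} (ha : ∀ c, a c ∈ V) {Φ : M} {φ : L}
  (hΦ : Φ - a φ ∈ V.nonunits)

include ha in
theorem a_isUnit {c : L} (hc : c ≠ 0) : IsUnit (⟨a c, ha c⟩ : V) :=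
  isUnit_of_inv_mem (ha c) (by simpa using hc) (by rw [← map_inv₀]; exact ha _)

include ha in
theorem a_injective_nonunits {c : L} (hc : a c ∈ V.nonunits) : c = 0 := by
  by_contra h
  exact (mem_nonunits_iff_mem.mp hc).2 (a_isUnit a ha h)

include ha hΦ in
theorem aeval_sub_mem (q : Polynomial F₀) :
    Polynomial.aeval Φ q - a (Polynomial.aeval φ q) ∈ V.nonunits := by
  have hΦV : Φ ∈ V := by
    have := add_mem (mem_of_mem_nonunits hΦ) (ha φ)
    rwa [sub_add_cancel] at this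
  have hF : ∀ c : F₀, algebraMap F₀ M c ∈ V := by
    intro c
    rw [← a.commutes]
    exact ha _
  -- compute in the residue field
  let r := IsLocalRing.residue V
  have hloc : IsLocalHom r := inferInstanceAs (IsLocalHom (IsLocalRing.residue V))
  let g : F₀ →+* V := (algebraMap F₀ M).codRestrict V.toSubring hF
  have h1 : Polynomial.aeval Φ q = ((Polynomial.eval₂ g ⟨Φ, hΦV⟩ q : V) : M) := by
    show _ = V.subtype _
    rw [Polynomial.hom_eval₂]
    rfl
  have h2 : a (Polynomial.aeval φ q) = ((Polynomial.eval₂ g ⟨a φ, ha φ⟩ q : V) : M) := by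
    show _ = V.subtype _
    rw [Polynomial.hom_eval₂, ← Polynomial.aeval_algHom_apply]
    rfl
  rw [h1, h2, sub_mem_nonunits_iff_res r (SetLike.coe_mem _) (SetLike.coe_mem _)]
  show r (Polynomial.eval₂ g ⟨Φ, hΦV⟩ q) = r (Polynomial.eval₂ g ⟨a φ, ha φ⟩ q)
  rw [Polynomial.hom_eval₂, Polynomial.hom_eval₂]
  congr 1
  exact (sub_mem_nonunits_iff_res r hΦV (ha φ)).mp hΦ

include ha hΦ in
/-- if `φ` is transcendental, `F₀(Φ) ⊆ V` -/
theorem adjoin_le_of_transcendental (hφ : Transcendental F₀ φ) : ∀ x ∈ F₀⟮Φ⟯, x ∈ V := by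
  intro x hx
  rw [mem_adjoin_simple_iff] at hx
  obtain ⟨p, q, rfl⟩ := hx
  have hp := aeval_sub_mem a ha hΦ p
  have hq := aeval_sub_mem a ha hΦ q
  have hpV : Polynomial.aeval Φ p ∈ V := by
    have := add_mem (mem_of_mem_nonunits hp) (ha (Polynomial.aeval φ p))
    rwa [sub_add_cancel] at this
  have hqV : Polynomial.aeval Φ q ∈ V := by
    have := add_mem (mem_of_mem_nonunits hq) (ha (Polynomial.aeval φ q))
    rwa [sub_add_cancel] at this
  by_cases hq0 : q = 0
  · rw [hq0, map_zero, div_zero]; exact zero_mem _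
  have h1 : Polynomial.aeval φ q ≠ 0 := fun h => hφ ⟨q, hq0, h⟩
  rw [div_eq_mul_inv]
  refine mul_mem hpV ?_
  apply inv_mem_of_isUnit (h := hqV)
  by_contra h2
  have h3 : Polynomial.aeval Φ q ∈ V.nonunits := mem_nonunits_iff_mem.mpr ⟨hqV, h2⟩
  apply h1
  apply a_injective_nonunits a ha
  let r := IsLocalRing.residue V
  have hloc : IsLocalHom r := inferInstanceAs (IsLocalHom (IsLocalRing.residue V))
  rw [mem_nonunits_iff_res r (ha _)]
  rw [mem_nonunits_iff_res r hqV] at h3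
  rw [sub_mem_nonunits_iff_res r hqV (ha _)] at hq
  rw [← hq, h3]

include ha hΦ in
/-- if `Φ` is algebraic, so is `φ` -/
theorem isAlgebraic_of_isAlgebraic (h : IsAlgebraic F₀ Φ) : IsAlgebraic F₀ φ := by
  obtain ⟨q, hq0, hq⟩ := h
  refine ⟨q, hq0, ?_⟩
  have h1 := aeval_sub_mem a ha hΦ q
  apply a_injective_nonunits a ha
  let r := IsLocalRing.residue V
  have hloc : IsLocalHom r := inferInstanceAs (IsLocalHom (IsLocalRing.residue V))
  have h2 : Polynomial.aeval Φ q ∈ V := by rw [hq]; exact zero_mem _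
  rw [sub_mem_nonunits_iff_res r h2 (ha _)] at h1
  rw [mem_nonunits_iff_res r (ha _), ← h1, ← mem_nonunits_iff_res r h2, hq,
    mem_nonunits_iff_res r (zero_mem _)]
  exact map_zero r

end

/-- the degree vanishes for algebraic `φ` -/
theorem finrank_eq_zero_of_isAlgebraic [h : IsFF F₀ L] {φ : L} (hφ : IsAlgebraic F₀ φ) :
    finrank F₀⟮φ⟯ L = 0 := by
  apply Module.finrank_of_not_finite
  intro hfin
  obtain ⟨x, hx, -⟩ := h.exists_transcendental
  apply hx
  have : FiniteDimensional F₀ F₀⟮φ⟯ := adjoin.finiteDimensional hφ.isIntegral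
  have : FiniteDimensional F₀ L := FiniteDimensional.trans F₀ F₀⟮φ⟯ L
  exact Algebra.IsAlgebraic.isAlgebraic x

/-- the residue degree over `F₀(Φ)` -/
theorem deg_eq_finrank (a : L →ₐ[F₀] M) {Φ : M} {φ : L} (v : Place F₀⟮Φ⟯ M)
    (ha : ∀ c, a c ∈ v.toValuationSubring) (hΦ : Φ - a φ ∈ v.toValuationSubring.nonunits)
    (hsurj : ∀ z ∈ v.toValuationSubring, ∃ c : L, z - a c ∈ v.toValuationSubring.nonunits) :
    v.deg = finrank F₀⟮φ⟯ L := by
  let V := v.toValuationSubring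
  let r : V →+* v.ResidueField := IsLocalRing.residue V
  have hloc : IsLocalHom r := inferInstanceAs (IsLocalHom (IsLocalRing.residue V))
  let β : L →+* v.ResidueField := r.comp ((a : L →+* M).codRestrict V.toSubring ha)
  have hβ : ∀ c, β c = r ⟨a c, ha c⟩ := fun _ => rfl
  have hβs : Function.Surjective β := by
    intro y
    obtain ⟨z, rfl⟩ := IsLocalRing.residue_surjective y
    obtain ⟨c, hc⟩ := hsurj z z.2
    refine ⟨c, ?_⟩
    rw [hβ]
    exact ((sub_mem_nonunits_iff_res r z.2 (ha c)).mp hc).symm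
  let e : L ≃+* v.ResidueField := RingEquiv.ofBijective β ⟨β.injective, hβs⟩
  have he : ∀ c, e c = r ⟨a c, ha c⟩ := fun _ => rfl
  have hκV : ∀ x : F₀⟮Φ⟯, (x : M) ∈ V := fun x => v.algebraMap_mem' x
  have hres : ∀ x : F₀⟮Φ⟯, algebraMap F₀⟮Φ⟯ v.ResidueField x = r ⟨x, hκV x⟩ := fun _ => rfl
  let γ : F₀⟮Φ⟯ →ₐ[F₀] L :=
    { (e.symm : v.ResidueField →+* L).comp (algebraMap F₀⟮Φ⟯ v.ResidueField) with
      commutes' := by
        intro c
        show e.symm (algebraMap F₀⟮Φ⟯ v.ResidueField (algebraMap F₀ F₀⟮Φ⟯ c)) = _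
        rw [RingEquiv.symm_apply_eq, he, hres]
        congr 1
        ext
        exact (a.commutes c).symm }
  have hγ : ∀ x, e (γ x) = algebraMap F₀⟮Φ⟯ v.ResidueField x := fun x => e.apply_symm_apply _
  have hγΦ : γ (AdjoinSimple.gen F₀ Φ) = φ := by
    apply e.injective
    rw [hγ, hres, he]
    have h1 : Φ ∈ V := hκV (AdjoinSimple.gen F₀ Φ)
    exact (sub_mem_nonunits_iff_res r h1 (ha φ)).mp hΦ
  have hrange : γ.fieldRange = F₀⟮φ⟯ := by
    rw [AlgHom.fieldRange_eq_map, ← adjoin_gen_eq_top, adjoin_map, Set.image_singleton, hγΦ]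
  let i₁ : F₀⟮Φ⟯ ≃+* γ.fieldRange :=
    (AlgEquiv.ofInjectiveField γ : F₀⟮Φ⟯ ≃ₐ[F₀] γ.range).toRingEquiv
  let i₂ : γ.fieldRange ≃+* F₀⟮φ⟯ := (equivOfEq hrange).toRingEquiv
  show finrank F₀⟮Φ⟯ v.ResidueField = finrank F₀⟮φ⟯ L
  refine Algebra.finrank_eq_of_equiv_equiv (i₁.trans i₂) e.symm ?_
  ext x
  show γ x = e.symm (algebraMap F₀⟮Φ⟯ v.ResidueField x)
  rfl

end Fermat.Agent.AVDc
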