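import Fermat.Agent.AVDc.Classify
import Fermat.Agent.AVDc.Deg

/-!
# The count of zeros and poles of `u₁ - u₂` over `F₀(Φ)`
-/

set_option autoImplicit false
set_option linter.unusedSectionVars false

noncomputable section

universe u

open AlgebraicCurve Module IntermediateField
open Fermat.Agent.FunField Fermat.Agent.FunField.PlaceLemmas Fermat.Agent.BaseChangeFF

namespace Fermat.Agent.AVDc

section one

variable {k E L M : Type u} [Field k] [Field E] [Field L] [Field M]
  [Algebra k E] [Algebra k L] [Algebra k M]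

/-- `M` is generated by `i(E)` and `a(L)`, which are linearly disjoint over `k`. -/
def BCh (i : E →ₐ[k] M) (a : L →ₐ[k] M) : Prop :=
  letI : Algebra L M := (a : L →+* M).toAlgebra
  letI : Algebra E M := (i : E →+* M).toAlgebra
  BC k L E M

/-- the multiplicities -/
def eps {u : E} : (E ≃ₐ[k⟮u⟯] E) ⊕ InfPl k u → ℤ := Sum.elim (fun _ => 1) (fun p => -(eInf p))

theorem oneSide [IsAlgClosed k] [IsFF k E] (i : E →ₐ[k] M) (a : L →ₐ[k] M) (h : BCh i a)
    (ι : E →ₐ[k] L) {u : E} (hu : Transcendental k u) [FiniteDimensional k⟮u⟯ E]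
    [IsGalois k⟮u⟯ E] [Fintype (InfPl k u)] :
    ∃ W : (E ≃ₐ[k⟮u⟯] E) ⊕ InfPl k u → ValuationSubring M, Function.Injective W ∧
      (∀ x c, a c ∈ W x) ∧
      (∀ s x, i x - a (ι (s x)) ∈ (W (Sum.inl s)).nonunits) ∧
      (∀ p (x : p.1.toValuationSubring), i (x : E) - a (algebraMap k L (resP p.1 x)) ∈
        (W (Sum.inr p)).nonunits) ∧
      (∀ p, i u ∉ W (Sum.inr p)) ∧
      (∀ x z, z ∈ W x → ∃ c : L, z - a c ∈ (W x).nonunits) ∧
      (∀ x (κ : Type u) [Field κ] [Algebra κ M] (v : Place κ M), v.toValuationSubring = W x →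
        v.ord (i u - a (ι u)) = eps x) ∧
      (∀ V : ValuationSubring M, (∀ c, a c ∈ V) →
        (i u - a (ι u) ∉ V ∨ i u - a (ι u) ∈ V.nonunits) → ∃ x, W x = V) := by
  let _ : Algebra L M := (a : L →+* M).toAlgebra
  let _ : Algebra E M := (i : E →+* M).toAlgebra
  have _ : IsScalarTower k L M := IsScalarTower.of_algebraMap_eq fun c => (a.commutes c).symm
  have _ : IsScalarTower k E M := IsScalarTower.of_algebraMap_eq fun c => (i.commutes c).symm
  have hBC : BC k L E M := h
  have _ : IsFF L M := BaseChangeFF.isFF (K₀ := k) (F₀ := E)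
  have hai : ∀ c, algebraMap L M c = a c := fun _ => rfl
  have hii : ∀ c, algebraMap E M c = i c := fun _ => rfl
  obtain ⟨w, hw1, hw2, hw3, hw4, hw5⟩ := exists_zeros (M := M) ι hu
  obtain ⟨w', hw1', hw2', hw3', hw4', hw5', hw6'⟩ := exists_poles (M := M) (ι u) hu
  simp only [hai, hii] at hw2 hw3 hw5 hw2' hw4' hw6'
  have hlam0 : i u - a (ι u) ≠ 0 := by
    rw [← hai, ← hii]
    exact sub_algebraMap_ne_zero (BC.transcendental (K := L) (F := M) hu) _
  have hdeg : ∀ v : Place L M, v.deg = 1 → ∀ z ∈ v.toValuationSubring,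
      ∃ c : L, z - a c ∈ v.toValuationSubring.nonunits := by
    intro v hv z hz
    have h1 : finrank L v.ResidueField = 1 := hv
    obtain ⟨c, hc⟩ := (finrank_eq_one_iff_of_nonzero' (1 : v.ResidueField) one_ne_zero).mp h1
      (IsLocalRing.residue v.toValuationSubring ⟨z, hz⟩)
    refine ⟨c, ?_⟩
    let r := IsLocalRing.residue v.toValuationSubring
    have hloc : IsLocalHom r := inferInstanceAs (IsLocalHom (IsLocalRing.residue _))
    have hc' : a c ∈ v.toValuationSubring := v.algebraMap_mem' c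
    rw [sub_mem_nonunits_iff_res r hz hc']
    rw [Algebra.smul_def, mul_one] at hc
    exact hc.symm
  have hpole : ∀ p, i u ∉ (w' p).toValuationSubring := by
    intro p hp
    have h1 : u ∈ rst (F₀ := E) (w' p) := hp
    rw [← hw3' p] at h1
    exact p.2 h1
  have hiu : ∀ s, i u ∈ (w s).toValuationSubring := by
    intro s
    have h1 := hw2 s u
    rw [mem_geSub_one_iff] at h1
    have h2 := add_mem (mem_of_mem_nonunits h1) ((w s).algebraMap_mem' (ι (s u)))
    rwa [hai, sub_add_cancel] at h2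
  refine ⟨Sum.elim (fun s => (w s).toValuationSubring) (fun p => (w' p).toValuationSubring),
    ?_, ?_, ?_, ?_, ?_, ?_, ?_, ?_⟩
  · rintro (s | p) (t | q) hst
    · exact congrArg Sum.inl (hw1 (Place.ext hst))
    · exact absurd (show i u ∈ (w' q).toValuationSubring from
        (show (w s).toValuationSubring = (w' q).toValuationSubring from hst) ▸ hiu s) (hpole q)
    · exact absurd (show i u ∈ (w' p).toValuationSubring from
        (show (w' p).toValuationSubring = (w t).toValuationSubring from hst) ▸ hiu t) (hpole p)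
    · exact congrArg Sum.inr (hw1' (Place.ext hst))
  · rintro (s | p) c
    · exact (w s).algebraMap_mem' c
    · exact (w' p).algebraMap_mem' c
  · intro s x
    exact mem_geSub_one_iff.mp (hw2 s x)
  · intro p x
    exact mem_geSub_one_iff.mp (hw2' p x)
  · exact hpole
  · rintro (s | p) z hz
    · exact hdeg (w s) (hw4 s) z hz
    · exact hdeg (w' p) (hw5' p) z hz
  · rintro (s | p) κ _ _ v hv
    · rw [ord_congr v (w s) hv]
      exact hw3 s
    · rw [ord_congr v (w' p) hv]
      exact hw4' p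
  · intro V hV hl
    have htop : V ≠ ⊤ := by
      rintro rfl
      rcases hl with h1 | h1
      · exact h1 trivial
      · exact not_mem_nonunits_of_inv_mem hlam0 (ValuationSubring.mem_top _) h1
    let v : Place L M := placeOfValuationSubring V hV htop
    rcases hl with h1 | h1
    · have h2 : v.ord (i u - a (ι u)) < 0 := by
        by_contra h3
        exact h1 ((mem_iff_ord_nonneg v hlam0).mpr (not_lt.mp h3))
      obtain ⟨p, hp⟩ := hw6' v h2
      exact ⟨Sum.inr p, congrArg Place.toValuationSubring hp⟩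
    · have h2 : i u - a (ι u) ∈ geSub v 1 := mem_geSub_one_iff.mpr h1
      rw [mem_geSub_of_ne hlam0] at h2
      obtain ⟨s, hs⟩ := hw5 v (by omega)
      exact ⟨Sum.inl s, congrArg Place.toValuationSubring hs⟩

end one

section two

variable {k E F₀ L M : Type u} [Field k] [Field E] [Field F₀] [Field L] [Field M]
  [Algebra k E] [Algebra k F₀] [Algebra k L] [Algebra k M] [Algebra E L] [Algebra F₀ L]
  [Algebra F₀ M] [IsScalarTower k E L] [IsScalarTower k F₀ L] [IsScalarTower k F₀ M]

/-- abstract zero/pole count -/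
theorem sum_eps_eq_zero {I : Type*} [Fintype I] {Φ : M} [IsFF F₀ L] [IsFF F₀⟮Φ⟯ M] {lam : M}
    (W : I → ValuationSubring M) (hW : Function.Injective W) (a : I → L →ₐ[F₀] M) (φ : I → L)
    (ε : I → ℤ) (ha : ∀ x c, a x c ∈ W x) (hΦ : ∀ x, Φ - a x (φ x) ∈ (W x).nonunits)
    (hsurj : ∀ x z, z ∈ W x → ∃ c : L, z - a x c ∈ (W x).nonunits)
    (hord : ∀ x (v : Place F₀⟮Φ⟯ M), v.toValuationSubring = W x → v.ord lam = ε x)
    (hlam : ∀ x, lam ∉ W x ∨ lam ∈ (W x).nonunits) (hlam0 : lam ≠ 0)
    (hall : ∀ v : Place F₀⟮Φ⟯ M, v.ord lam ≠ 0 → ∃ x, W x = v.toValuationSubring) :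
    ∑ x, ε x * (finrank F₀⟮φ x⟯ L : ℤ) = 0 := by
  classical
  have h0 := degree_divOf (K := F₀⟮Φ⟯) lam
  rw [degree_eq_sum, Finsupp.sum] at h0
  -- the places on the list
  have htop : ∀ x, W x ≠ ⊤ := by
    intro x h
    rcases hlam x with h1 | h1
    · rw [h] at h1; exact h1 trivial
    · rw [h] at h1
      exact not_mem_nonunits_of_inv_mem hlam0 (ValuationSubring.mem_top _) h1
  let J : Finset I := Finset.univ.filter fun x => ∀ c : F₀⟮Φ⟯, (c : M) ∈ W x
  have hJ : ∀ x, x ∈ J ↔ ∀ c : F₀⟮Φ⟯, (c : M) ∈ W x := fun x => by simp [J]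
  have hz : ∀ x, x ∉ J → finrank F₀⟮φ x⟯ L = 0 := by
    intro x hx
    apply finrank_eq_zero_of_isAlgebraic
    by_contra hcon
    apply hx
    rw [hJ]
    intro c
    exact adjoin_le_of_transcendental (a x) (ha x) (hΦ x) hcon c c.2
  have h1 : ∑ x, ε x * (finrank F₀⟮φ x⟯ L : ℤ) = ∑ x ∈ J, ε x * (finrank F₀⟮φ x⟯ L : ℤ) := by
    symm
    apply Finset.sum_subset (Finset.subset_univ _)
    intro x _ hx
    rw [hz x hx]
    simp
  rw [h1, ← Finset.sum_attach]
  let pl : {x // x ∈ J} → Place F₀⟮Φ⟯ M := fun x =>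
    placeOfValuationSubring (W x.1) ((hJ x.1).mp x.2) (htop x.1)
  have hpl : ∀ x, (pl x).toValuationSubring = W x.1 := fun _ => rfl
  have hplinj : Function.Injective pl := by
    intro x y hxy
    apply Subtype.ext
    apply hW
    rw [← hpl x, ← hpl y, hxy]
  have h2 : ∑ x ∈ J.attach, ε x.1 * (finrank F₀⟮φ x.1⟯ L : ℤ) =
      ∑ v ∈ J.attach.image pl, (divOf lam : Divisor F₀⟮Φ⟯ M) v * (v.deg : ℤ) := by
    rw [Finset.sum_image (fun x _ y _ h => hplinj h)]
    refine Finset.sum_congr rfl fun x _ => ?_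
    rw [divOf_apply, hord x.1 (pl x) rfl, deg_eq_finrank (a x.1) (pl x) (ha x.1) (hΦ x.1)
      (hsurj x.1)]
  rw [h2, ← h0]
  symm
  apply Finset.sum_subset_zero_on_sdiff
  · intro v hv
    rw [Finsupp.mem_support_iff, divOf_apply] at hv
    obtain ⟨x, hx⟩ := hall v hv
    have hxJ : x ∈ J := by
      rw [hJ, hx]
      exact v.algebraMap_mem'
    rw [Finset.mem_image]
    exact ⟨⟨x, hxJ⟩, Finset.mem_attach _ _, Place.ext hx⟩
  · intro v hv
    rw [Finset.mem_sdiff, Finsupp.mem_support_iff, not_not] at hv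
    rw [hv.2, zero_mul]
  · intro v _
    rfl

theorem core [IsAlgClosed k] [IsFF k E] [BC k F₀ E L] {u : E} (hu : Transcendental k u)
    [FiniteDimensional k⟮u⟯ E] [IsGalois k⟮u⟯ E] [Fintype (InfPl k u)]
    (a₁ a₂ : L →ₐ[k] M) (hj₁ : ∀ c : F₀, a₁ (algebraMap F₀ L c) = algebraMap F₀ M c)
    (hj₂ : ∀ c : F₀, a₂ (algebraMap F₀ L c) = algebraMap F₀ M c)
    (hb₂ : BCh (a₁.comp (IsScalarTower.toAlgHom k E L)) a₂)
    (hb₁ : BCh (a₂.comp (IsScalarTower.toAlgHom k E L)) a₁) {Φ : M}
    (hZ : Transcendental F₀ Φ →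
      HZ F₀ (a₁.comp (IsScalarTower.toAlgHom k E L)) (a₂.comp (IsScalarTower.toAlgHom k E L)) Φ)
    (φs : (E ≃ₐ[k⟮u⟯] E) → L) (φ₁ φ₂ : InfPl k u → L)
    (Hs : ∀ s (V : ValuationSubring M), (∀ c, a₂ c ∈ V) →
      (∀ x : E, a₁ (algebraMap E L x) - a₂ (algebraMap E L (s x)) ∈ V.nonunits) →
      Φ - a₂ (φs s) ∈ V.nonunits)
    (H₁ : ∀ p (V : ValuationSubring M), (∀ c, a₂ c ∈ V) →
      (∀ x : p.1.toValuationSubring, a₁ (algebraMap E L x) - a₂ (algebraMap k L (resP p.1 x)) ∈
        V.nonunits) → Φ - a₂ (φ₁ p) ∈ V.nonunits)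
    (H₂ : ∀ p (V : ValuationSubring M), (∀ c, a₁ c ∈ V) →
      (∀ x : p.1.toValuationSubring, a₂ (algebraMap E L x) - a₁ (algebraMap k L (resP p.1 x)) ∈
        V.nonunits) → Φ - a₁ (φ₂ p) ∈ V.nonunits) :
    ∑ s, finrank F₀⟮φs s⟯ L =
      ∑ p, eInf p * finrank F₀⟮φ₁ p⟯ L + ∑ p, eInf p * finrank F₀⟮φ₂ p⟯ L := by
  classical
  have hFL : IsFF F₀ L := BaseChangeFF.isFF (K₀ := k) (F₀ := E)
  obtain ⟨W, w1, w2, w3, w4, w5, w6, w7, w8⟩ := oneSide _ a₂ hb₂ (IsScalarTower.toAlgHom k E L) hu
  obtain ⟨X, x1, x2, x3, x4, x5, x6, x7, x8⟩ := oneSide _ a₁ hb₁ (IsScalarTower.toAlgHom k E L) hu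
  let b₁ : L →ₐ[F₀] M := { (a₁ : L →+* M) with commutes' := hj₁ }
  let b₂ : L →ₐ[F₀] M := { (a₂ : L →+* M) with commutes' := hj₂ }
  -- the list
  let WW : ((E ≃ₐ[k⟮u⟯] E) ⊕ InfPl k u) ⊕ InfPl k u → ValuationSubring M :=
    Sum.elim W (fun p => X (Sum.inr p))
  let aa : ((E ≃ₐ[k⟮u⟯] E) ⊕ InfPl k u) ⊕ InfPl k u → L →ₐ[F₀] M :=
    Sum.elim (fun _ => b₂) (fun _ => b₁)
  let φφ : ((E ≃ₐ[k⟮u⟯] E) ⊕ InfPl k u) ⊕ InfPl k u → L := Sum.elim (Sum.elim φs φ₁) φ₂
  let εε : ((E ≃ₐ[k⟮u⟯] E) ⊕ InfPl k u) ⊕ InfPl k u → ℤ :=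
    Sum.elim (Sum.elim (fun _ => 1) (fun p => -(eInf p))) (fun p => -(eInf p))
  have key : ∑ x, εε x * (finrank F₀⟮φφ x⟯ L : ℤ) = 0 := by
    have haa : ∀ x c, aa x c ∈ WW x := by
      rintro (x | p) c
      · exact w2 x c
      · exact x2 _ c
    have hΦΦ : ∀ x, Φ - aa x (φφ x) ∈ (WW x).nonunits := by
      rintro ((s | p) | p)
      · exact Hs s _ (w2 _) (w3 s)
      · exact H₁ p _ (w2 _) (w4 p)
      · exact H₂ p _ (x2 _) (x4 p)
    by_cases hΦ : Transcendental F₀ Φ
    · have hML : IsFF F₀⟮Φ⟯ M := by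
        let _ : Algebra L M := (a₂ : L →+* M).toAlgebra
        let _ : Algebra E M :=
          ((a₁.comp (IsScalarTower.toAlgHom k E L) : E →ₐ[k] M) : E →+* M).toAlgebra
        have _ : IsScalarTower k L M := IsScalarTower.of_algebraMap_eq fun c =>
          (a₂.commutes c).symm
        have _ : IsScalarTower k E M := IsScalarTower.of_algebraMap_eq fun c =>
          ((a₁.comp (IsScalarTower.toAlgHom k E L)).commutes c).symm
        have _ : IsScalarTower F₀ L M := IsScalarTower.of_algebraMap_eq fun c => (hj₂ c).symm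
        have hBC : BC k L E M := hb₂
        have _ : IsFF L M := BaseChangeFF.isFF (K₀ := k) (F₀ := E)
        exact isFF_adjoin_of_two (L := L) hΦ
      have hu2 : ∀ (x : (E ≃ₐ[k⟮u⟯] E) ⊕ InfPl k u), a₂ (algebraMap E L u) ∈ W x :=
        fun x => w2 x _
      refine sum_eps_eq_zero (Φ := Φ) (lam := a₁ (algebraMap E L u) - a₂ (algebraMap E L u)) WW ?_
        aa φφ εε haa hΦΦ ?_ ?_ ?_ ?_ ?_
      · -- injectivity
        rintro (x | p) (y | q) h
        · exact congrArg Sum.inl (w1 h)
        · exfalso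
          exact x5 q ((show W x = X (Sum.inr q) from h) ▸ hu2 x)
        · exfalso
          exact x5 p ((show X (Sum.inr p) = W y from h) ▸ hu2 y)
        · exact congrArg Sum.inr (Sum.inr_injective (x1 h))
      · rintro (x | p) z hz
        · exact w6 x z hz
        · exact x6 _ z hz
      · rintro ((s | p) | p) v hv
        · exact w7 (Sum.inl s) _ v hv
        · exact w7 (Sum.inr p) _ v hv
        · have h1 := x7 (Sum.inr p) _ v hv
          have h2 : a₁ (algebraMap E L u) - a₂ (algebraMap E L u) =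
              -(a₂ (algebraMap E L u) - a₁ (algebraMap E L u)) := by ring
          rw [h2, ord_neg]
          exact h1
      · rintro ((s | p) | p)
        · right
          have := w3 s u
          have h1 : s u = u := s.commutes ⟨u, mem_adjoin_simple_self k u⟩
          rw [h1] at this
          exact this
        · left
          intro h
          have := add_mem h (w2 (Sum.inr p) (algebraMap E L u))
          rw [sub_add_cancel] at this
          exact w5 p this
        · left
          intro h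
          have h2 := sub_mem (x2 (Sum.inr p) (algebraMap E L u)) h
          rw [sub_sub_cancel] at h2
          exact x5 p h2
      · -- nonzero
        intro h0
        have _ : Nonempty (E ≃ₐ[k⟮u⟯] E) := ⟨AlgEquiv.refl⟩
        have hne : IsEmpty (InfPl k u) → False := by
          intro he
          have h1 := sum_eInf hu
          rw [Finset.univ_eq_empty, Finset.sum_empty] at h1
          have h2 : 0 < finrank k⟮u⟯ E := finrank_pos
          omega
        by_cases he : IsEmpty (InfPl k u)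
        · exact hne he
        · rw [not_isEmpty_iff] at he
          obtain ⟨p⟩ := he
          have h1 : a₁ (algebraMap E L u) = a₂ (algebraMap E L u) := sub_eq_zero.mp h0
          apply w5 p
          show a₁ (algebraMap E L u) ∈ _
          rw [h1]
          exact w2 _ _
      · -- completeness
        intro v hv
        have hκ : ∀ x ∈ F₀⟮Φ⟯, x ∈ v.toValuationSubring := fun x hx => v.algebraMap_mem' ⟨x, hx⟩
        have hlam0 : a₁ (algebraMap E L u) - a₂ (algebraMap E L u) ≠ 0 := by
          intro h0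
          rw [h0, v.ord_zero] at hv
          exact hv rfl
        have hl : a₁ (algebraMap E L u) - a₂ (algebraMap E L u) ∉ v.toValuationSubring ∨
            a₁ (algebraMap E L u) - a₂ (algebraMap E L u) ∈ v.toValuationSubring.nonunits := by
          rcases lt_or_gt_of_ne hv with h1 | h1
          · left
            rw [mem_iff_ord_nonneg v hlam0]
            omega
          · right
            rw [← mem_geSub_one_iff, mem_geSub_of_ne hlam0]
            omega
        rcases classify (u := u) a₁ a₂ hj₁ hj₂ (hZ hΦ) v.toValuationSubring hκ hl with h1 | ⟨h1, h2⟩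
        · obtain ⟨x, hx⟩ := w8 _ h1 hl
          exact ⟨Sum.inl x, hx⟩
        · have hl' : a₂ (algebraMap E L u) - a₁ (algebraMap E L u) ∉ v.toValuationSubring ∨
              a₂ (algebraMap E L u) - a₁ (algebraMap E L u) ∈ v.toValuationSubring.nonunits := by
            have h3 : a₂ (algebraMap E L u) - a₁ (algebraMap E L u) =
              -(a₁ (algebraMap E L u) - a₂ (algebraMap E L u)) := by ring
            rw [h3]
            rcases hl with h4 | h4
            · left
              rwa [neg_mem_iff]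
            · right
              rw [← mem_geSub_one_iff] at h4 ⊢
              exact Submodule.neg_mem _ h4
          obtain ⟨x, hx⟩ := x8 _ h1 hl'
          rcases x with s | p
          · exfalso
            apply h2
            intro y
            rw [← hx]
            have h3 := mem_of_mem_nonunits (x3 s y)
            have h4 := add_mem h3 (x2 (Sum.inl s) (IsScalarTower.toAlgHom k E L (s y)))
            rw [sub_add_cancel] at h4
            exact h4
          · exact ⟨Sum.inr p, hx⟩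
    · have hΦa : IsAlgebraic F₀ Φ := not_not.mp hΦ
      refine Finset.sum_eq_zero fun x _ => ?_
      rw [finrank_eq_zero_of_isAlgebraic
        (isAlgebraic_of_isAlgebraic (aa x) (haa x) (hΦΦ x) hΦa)]
      simp
  rw [Fintype.sum_sum_type, Fintype.sum_sum_type] at key
  simp only [εε, φφ, Sum.elim_inl, Sum.elim_inr, one_mul, neg_mul, Finset.sum_neg_distrib] at key
  have h2 : (∑ s, (finrank F₀⟮φs s⟯ L : ℤ)) =
      ∑ p, (eInf p : ℤ) * finrank F₀⟮φ₁ p⟯ L + ∑ p, (eInf p : ℤ) * finrank F₀⟮φ₂ p⟯ L := by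
    rw [add_assoc, ← neg_add, add_neg_eq_zero] at key
    exact key
  exact_mod_cast h2

end two

end Fermat.Agent.AVDc
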