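import Fermat.Agent.BaseChangeFF.Tensor
import Fermat.Agent.FunField.AlgClosed

/-!
# Counting places of a constant field extension
-/

set_option autoImplicit false

noncomputable section

open AlgebraicCurve Module IntermediateField
open Fermat.Agent.FunField Fermat.Agent.FunField.PlaceLemmas Fermat.Agent.BaseChangeFF
open scoped TensorProduct

namespace Fermat.Agent.AVDc

/-- A family of zeros of `f` accounting for the whole degree of `f` is complete, with
multiplicities and residue degrees as small as possible. -/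
theorem places_of_count {L M : Type*} [Field L] [Field M] [Algebra L M] [IsFF L M] {f : M}
    (hf : Transcendental L f) {ι : Type*} [Fintype ι] (w : ι → Place L M)
    (hw : Function.Injective w) (e : ι → ℕ) (he0 : ∀ i, 0 < e i)
    (he : ∀ i, (e i : ℤ) ≤ (w i).ord f) (hsum : finrank L⟮f⟯ M ≤ ∑ i, e i) :
    (∀ v : Place L M, 0 < v.ord f → ∃ i, w i = v) ∧ (∀ i, (w i).ord f = e i) ∧
      ∀ i, (w i).deg = 1 := by
  classical
  set D' : Divisor L M := ∑ i, Finsupp.single (w i) (e i : ℤ) with hD'
  have hD'i : ∀ i, D' (w i) = e i := by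
    intro i
    rw [hD', Finsupp.finsetSum_apply, Finset.sum_eq_single i]
    · rw [Finsupp.single_eq_same]
    · intro j _ hj
      rw [Finsupp.single_eq_of_ne (fun h => hj (hw h).symm)]
    · intro h; exact absurd (Finset.mem_univ i) h
  have hD'n : ∀ v, (∀ i, w i ≠ v) → D' v = 0 := by
    intro v hv
    rw [hD', Finsupp.finsetSum_apply]
    exact Finset.sum_eq_zero fun i _ => by rw [Finsupp.single_eq_of_ne (fun h => hv i h.symm)]
  have hle : (0 : Divisor L M) ≤ zeroDiv f - D' := by
    intro v
    rw [Finsupp.coe_zero, Pi.zero_apply, Finsupp.sub_apply, zeroDiv_apply]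
    by_cases hv : ∃ i, w i = v
    · obtain ⟨i, rfl⟩ := hv
      rw [hD'i]
      have := he i
      have := le_max_left ((w i).ord f) 0
      omega
    · push Not at hv
      rw [hD'n v hv]
      have := le_max_right (v.ord f) 0
      omega
  have hdeg' : Divisor.degree D' = ∑ i, (e i : ℤ) * (w i).deg := by
    rw [hD', map_sum]
    exact Finset.sum_congr rfl fun i _ => by rw [Divisor.degree_single]
  have hdi : ∀ i, (1 : ℤ) ≤ (w i).deg := fun i => by exact_mod_cast deg_pos (w i)
  have hsum' : (finrank L⟮f⟯ M : ℤ) ≤ ∑ i, (e i : ℤ) := by exact_mod_cast hsum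
  have hle2 : ∑ i, (e i : ℤ) ≤ ∑ i, (e i : ℤ) * (w i).deg :=
    Finset.sum_le_sum fun i _ => by
      have := hdi i
      have h2 : (0 : ℤ) ≤ e i := Int.natCast_nonneg _
      nlinarith
  have hdeg : Divisor.degree (zeroDiv f - D') = finrank L⟮f⟯ M - ∑ i, (e i : ℤ) * (w i).deg := by
    rw [map_sub, degree_zeroDiv hf, hdeg']
  have h0 : zeroDiv f - D' = 0 := Deuring.eq_zero_of_degree_le_zero hle (by rw [hdeg]; omega)
  have hz : zeroDiv f = D' := sub_eq_zero.mp h0
  rw [h0, map_zero] at hdeg
  refine ⟨?_, ?_, ?_⟩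
  · intro v hv
    by_contra hcon
    push Not at hcon
    have h1 := DFunLike.congr_fun hz v
    rw [zeroDiv_apply, hD'n v hcon] at h1
    have := le_max_left (v.ord f) 0
    omega
  · intro i
    have h1 := DFunLike.congr_fun hz (w i)
    rw [zeroDiv_apply, hD'i] at h1
    have := he i
    have h3 := he0 i
    rw [max_eq_left (by omega)] at h1
    exact h1
  · intro i
    by_contra hne
    have h1 : ∑ i, (e i : ℤ) < ∑ i, (e i : ℤ) * (w i).deg := by
      apply Finset.sum_lt_sum
      · intro j _
        have := hdi j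
        have h2 : (0 : ℤ) ≤ e j := Int.natCast_nonneg _
        nlinarith
      · refine ⟨i, Finset.mem_univ i, ?_⟩
        have h2 : (0 : ℤ) < e i := by exact_mod_cast he0 i
        have h3 := hdi i
        have h4 : ((w i).deg : ℤ) ≠ 1 := by exact_mod_cast hne
        have h5 : (2 : ℤ) ≤ (w i).deg := by omega
        nlinarith
    omega

end Fermat.Agent.AVDc
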