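import Fermat.Agent.AVDc.Count
import Fermat.Agent.AVDc.Inf

/-!
# Places of the constant field extension `M = L·E` of a curve `E/k`, zeros and poles of `u - c`
-/

set_option autoImplicit false
set_option linter.unusedSectionVars false

noncomputable section

open AlgebraicCurve Module IntermediateField
open Fermat.Agent.FunField Fermat.Agent.FunField.PlaceLemmas Fermat.Agent.BaseChangeFF
open scoped TensorProduct

namespace Fermat.Agent.AVDc

theorem mem_geSub_one_iff {K F : Type*} [Field K] [Field F] [Algebra K F] {w : Place K F} {f : F} :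
    f ∈ geSub w 1 ↔ f ∈ w.toValuationSubring.nonunits := by
  rw [ValuationSubring.mem_nonunits_iff_exists_mem_maximalIdeal]
  by_cases hf : f = 0
  · subst hf
    simp only [Submodule.zero_mem, true_iff]
    exact ⟨zero_mem _, Ideal.zero_mem _⟩
  · rw [mem_geSub_of_ne hf]
    constructor
    · intro h
      have hm : f ∈ w.toValuationSubring := (mem_iff_ord_nonneg w hf).mpr (by omega)
      refine ⟨hm, (mem_maximalIdeal_iff w).mpr (Or.inr ?_)⟩
      show 0 < w.ord f
      omega
    · rintro ⟨h1, h2⟩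
      rcases (mem_maximalIdeal_iff w).mp h2 with h3 | h3
      · exact absurd h3 hf
      · have : 0 < w.ord f := h3
        omega

variable {k E L M : Type*} [Field k] [Field E] [Field L] [Field M] [Algebra k E] [Algebra k L]
  [Algebra k M] [Algebra E M] [Algebra L M] [IsScalarTower k E M] [IsScalarTower k L M]

/-- A place of `M/L` with prescribed residues on a subring of `E`. -/
theorem exists_place_of_hom [hBC : BC k L E M] [IsFF L M] {A : Type*} [CommRing A] [Algebra k A]
    (ι : A →ₐ[k] E) (hι : Function.Injective ι) (θ : A →ₐ[k] L) {x₀ : A}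
    (hx₀ : algebraMap E M (ι x₀) ≠ algebraMap L M (θ x₀)) :
    ∃ w : Place L M, ∀ x : A, algebraMap E M (ι x) - algebraMap L M (θ x) ∈ geSub w 1 := by
  let Ψ : L ⊗[k] A →ₐ[L] M := Algebra.TensorProduct.lift (Algebra.ofId L M)
    ((IsScalarTower.toAlgHom k E M).comp ι) (fun _ _ => Commute.all _ _)
  let Φ : L ⊗[k] A →ₐ[L] L := Algebra.TensorProduct.lift (AlgHom.id L L) θ
    (fun _ _ => Commute.all _ _)
  have hΨt : ∀ (c : L) (x : A), Ψ (c ⊗ₜ x) = algebraMap L M c * algebraMap E M (ι x) :=
    fun c x => rfl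
  have hΦt : ∀ (c : L) (x : A), Φ (c ⊗ₜ x) = c * θ x := fun c x => rfl
  have hΨ : Function.Injective Ψ := by
    let b := Module.Basis.ofVectorSpace k A
    let bL := Algebra.TensorProduct.basis L b
    have h1 : LinearIndependent k (fun i => ι (b i)) :=
      b.linearIndependent.map' ι.toLinearMap (LinearMap.ker_eq_bot.mpr hι)
    have h2 := hBC.linearIndependent h1
    have h3 : ∀ i, Ψ (bL i) = algebraMap E M (ι (b i)) := by
      intro i
      rw [Algebra.TensorProduct.basis_apply, hΨt, map_one, one_mul]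
    rw [injective_iff_map_eq_zero]
    intro x hx
    have h4 : Finsupp.linearCombination L (fun i => algebraMap E M (ι (b i))) (bL.repr x) = 0 := by
      rw [← hx]
      conv_rhs => rw [← bL.linearCombination_repr x]
      rw [Finsupp.linearCombination_apply, Finsupp.linearCombination_apply, Finsupp.sum,
        Finsupp.sum, map_sum]
      refine Finset.sum_congr rfl fun i _ => ?_
      rw [map_smul, h3]
    have h5 : bL.repr x = 0 := by
      rw [linearIndependent_iff] at h2
      exact h2 _ h4
    exact (LinearEquiv.map_eq_zero_iff bL.repr).mp h5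
  let S : Subring M := (Ψ : L ⊗[k] A →+* M).range
  let e : L ⊗[k] A ≃+* S := RingEquiv.ofBijective (Ψ : L ⊗[k] A →+* M).rangeRestrict
    ⟨fun x y hxy => hΨ (congrArg Subtype.val hxy), (Ψ : L ⊗[k] A →+* M).rangeRestrict_surjective⟩
  let I : Ideal S := Ideal.comap (e.symm : S →+* L ⊗[k] A) (RingHom.ker (Φ : L ⊗[k] A →+* L))
  have hI : I ≠ ⊤ := by
    rw [ne_eq, Ideal.eq_top_iff_one]
    intro h1
    rw [Ideal.mem_comap, RingHom.mem_ker, map_one, map_one] at h1
    exact one_ne_zero h1
  obtain ⟨B, hSB, hIB⟩ := Ideal.image_subset_nonunits_valuationSubring I hI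
  have hmemS : ∀ t : L ⊗[k] A, Ψ t ∈ S := fun t => ⟨t, rfl⟩
  have hK : ∀ c : L, algebraMap L M c ∈ B := by
    intro c
    apply hSB
    have := hmemS (c ⊗ₜ 1)
    rwa [hΨt, map_one, map_one, mul_one] at this
  have hN : ∀ x : A, algebraMap E M (ι x) - algebraMap L M (θ x) ∈ B.nonunits := by
    intro x
    apply hIB
    let t : L ⊗[k] A := (1 : L) ⊗ₜ[k] x - θ x ⊗ₜ[k] (1 : A)
    have h1 : Ψ t = algebraMap E M (ι x) - algebraMap L M (θ x) := by
      rw [map_sub, hΨt, hΨt, map_one, map_one, map_one, one_mul, mul_one]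
    refine ⟨⟨Ψ t, hmemS t⟩, ?_, h1⟩
    show Φ (e.symm ⟨Ψ t, hmemS t⟩) = 0
    have h2 : e.symm ⟨Ψ t, hmemS t⟩ = t := by
      rw [RingEquiv.symm_apply_eq]
      rfl
    rw [h2, map_sub, hΦt, hΦt, map_one, one_mul, mul_one, sub_self]
  have hB : B ≠ ⊤ := by
    rintro rfl
    have h1 := hN x₀
    rw [ValuationSubring.mem_nonunits_iff_exists_mem_maximalIdeal] at h1
    obtain ⟨h2, h3⟩ := h1
    rw [IsLocalRing.mem_maximalIdeal, mem_nonunits_iff] at h3
    apply h3
    have hne := sub_ne_zero.mpr hx₀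
    exact IsUnit.of_mul_eq_one ⟨(algebraMap E M (ι x₀) - algebraMap L M (θ x₀))⁻¹,
      ValuationSubring.mem_top _⟩ (Subtype.ext (mul_inv_cancel₀ hne))
  refine ⟨placeOfValuationSubring B hK hB, fun x => ?_⟩
  rw [mem_geSub_one_iff]
  exact hN x

theorem transcendental_sub [BC k L E M] {u : E} (hu : Transcendental k u) (c : L) :
    Transcendental L (algebraMap E M u - algebraMap L M c) :=
  transcendental_sub_algebraMap (BC.transcendental (K := L) (F := M) hu) c

theorem adjoin_sub_eq (x : M) (c : L) : L⟮x - algebraMap L M c⟯ = L⟮x⟯ := by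
  apply le_antisymm
  · rw [adjoin_simple_le_iff]
    exact sub_mem (mem_adjoin_simple_self L x) (IntermediateField.algebraMap_mem _ c)
  · rw [adjoin_simple_le_iff]
    have := add_mem (mem_adjoin_simple_self L (x - algebraMap L M c))
      (IntermediateField.algebraMap_mem L⟮x - algebraMap L M c⟯ c)
    rwa [sub_add_cancel] at this

/-- zeros of `u - ι u` on `M/L` -/
theorem exists_zeros [BC k L E M] [IsFF k E] [IsFF L M] (ι : E →ₐ[k] L) {u : E}
    (hu : Transcendental k u) [FiniteDimensional k⟮u⟯ E] [IsGalois k⟮u⟯ E] :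
    ∃ w : (E ≃ₐ[k⟮u⟯] E) → Place L M, Function.Injective w ∧
      (∀ s x, algebraMap E M x - algebraMap L M (ι (s x)) ∈ geSub (w s) 1) ∧
      (∀ s, (w s).ord (algebraMap E M u - algebraMap L M (ι u)) = 1) ∧
      (∀ s, (w s).deg = 1) ∧
      ∀ v : Place L M, 0 < v.ord (algebraMap E M u - algebraMap L M (ι u)) → ∃ s, w s = v := by
  classical
  have hne : ∀ c : L, algebraMap E M u ≠ algebraMap L M c := fun c =>
    sub_ne_zero.mp (sub_algebraMap_ne_zero (BC.transcendental (K := L) (F := M) hu) c)
  have hex : ∀ s : E ≃ₐ[k⟮u⟯] E, ∃ w : Place L M, ∀ x : E,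
      algebraMap E M x - algebraMap L M (ι (s x)) ∈ geSub w 1 := by
    intro s
    exact exists_place_of_hom (AlgHom.id k E) (fun _ _ h => h)
      (ι.comp (s.toAlgHom.restrictScalars k)) (x₀ := u) (hne _)
  choose w hw using hex
  have hsu : ∀ s : E ≃ₐ[k⟮u⟯] E, s u = u := fun s => s.commutes ⟨u, mem_adjoin_simple_self k u⟩
  have hinj : Function.Injective w := by
    intro s t hst
    ext x
    have h1 := hw s x
    have h2 := hw t x
    rw [← hst] at h2
    exact ι.injective (sub_mem_unique (w s) h1 h2)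
  have hord : ∀ s, (((1 : ℕ) : ℤ)) ≤ (w s).ord (algebraMap E M u - algebraMap L M (ι u)) := by
    intro s
    have h1 := hw s u
    rw [hsu, mem_geSub_of_ne (sub_ne_zero.mpr (hne _))] at h1
    exact_mod_cast h1
  have hsum : finrank L⟮algebraMap E M u - algebraMap L M (ι u)⟯ M ≤
      ∑ _s : E ≃ₐ[k⟮u⟯] E, 1 := by
    rw [adjoin_sub_eq, Finset.sum_const, Finset.card_univ, smul_eq_mul, mul_one,
      ← Nat.card_eq_fintype_card, IsGalois.card_aut_eq_finrank]
    exact (finrank_adjoin_le hu).2
  obtain ⟨h1, h2, h3⟩ := places_of_count (transcendental_sub hu (ι u)) w hinj (fun _ => 1)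
    (fun _ => one_pos) hord hsum
  refine ⟨w, hinj, hw, ?_, h3, h1⟩
  intro s
  rw [h2 s]
  rfl

theorem resP_inv [IsAlgClosed k] [IsFF k E] {u : E} (p : InfPl k u) :
    resP p.1 ⟨u⁻¹, inv_mem p⟩ = 0 := by
  rw [resP_eq_zero_iff]
  intro hun
  obtain ⟨y, hy⟩ := hun.exists_right_inv
  obtain ⟨q, hq⟩ := p
  have h2 : u⁻¹ * (y : E) = 1 := congrArg Subtype.val hy
  have h3 : (y : E) = u := by
    have hu0 : u ≠ 0 := by
      rintro rfl
      simp at h2
    field_simp at h2
    exact h2
  have hy2 : (y : E) ∈ q.toValuationSubring := y.2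
  rw [h3] at hy2
  exact hq hy2

/-- poles of `u - c` on `M/L` -/
theorem exists_poles [IsAlgClosed k] [BC k L E M] [IsFF k E] [IsFF L M] (c : L) {u : E}
    (hu : Transcendental k u) [Fintype (InfPl k u)] :
    ∃ w : InfPl k u → Place L M, Function.Injective w ∧
      (∀ p (x : p.1.toValuationSubring), algebraMap E M (x : E) -
        algebraMap L M (algebraMap k L (resP p.1 x)) ∈ geSub (w p) 1) ∧
      (∀ p, p.1.toValuationSubring = rst (w p)) ∧
      (∀ p, (w p).ord (algebraMap E M u - algebraMap L M c) = -(eInf p)) ∧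
      (∀ p, (w p).deg = 1) ∧
      ∀ v : Place L M, v.ord (algebraMap E M u - algebraMap L M c) < 0 → ∃ p, w p = v := by
  classical
  have hu0 : u ≠ 0 := fun h0 => hu (h0 ▸ isAlgebraic_zero)
  have hex : ∀ p : InfPl k u, ∃ w : Place L M, ∀ x : p.1.toValuationSubring,
      algebraMap E M (x : E) - algebraMap L M (algebraMap k L (resP p.1 x)) ∈ geSub w 1 := by
    intro p
    refine exists_place_of_hom (IsScalarTower.toAlgHom k p.1.toValuationSubring E)
      Subtype.val_injective ((Algebra.ofId k L).comp (resP p.1)) (x₀ := ⟨u⁻¹, inv_mem p⟩) ?_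
    rw [AlgHom.comp_apply, resP_inv, map_zero, map_zero]
    show algebraMap E M u⁻¹ ≠ 0
    simpa using hu0
  choose w hw using hex
  have hzero : ∀ (p : InfPl k u), algebraMap E M u⁻¹ ∈ geSub (w p) 1 := by
    intro p
    have h2 := hw p ⟨u⁻¹, inv_mem p⟩
    rwa [resP_inv, map_zero, map_zero, sub_zero] at h2
  have htop : ∀ p, rst (F₀ := E) (w p) ≠ ⊤ := by
    intro p h
    have h1 := hzero p
    have h2 : algebraMap E M u⁻¹ ≠ 0 := by simpa using hu0
    rw [mem_geSub_of_ne h2, ord_eq_zero_of_rst_top h] at h1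
    omega
  have hrst : ∀ p, p.1.toValuationSubring = rst (w p) := by
    intro p
    have hle : p.1.toValuationSubring ≤ (below (K₀ := k) (w p) (htop p)).toValuationSubring := by
      intro x hx
      show algebraMap E M x ∈ (w p).toValuationSubring
      have h1 := hw p ⟨x, hx⟩
      have h2 : algebraMap E M x - algebraMap L M (algebraMap k L (resP p.1 ⟨x, hx⟩)) ∈
          (w p).toValuationSubring := by
        rw [← mem_geSub_zero]
        exact geSub_anti _ (by omega) h1
      have h3 := add_mem h2 ((w p).algebraMap_mem' (algebraMap k L (resP p.1 ⟨x, hx⟩)))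
      rwa [sub_add_cancel] at h3
    have := eq_of_le hle
    exact congrArg Place.toValuationSubring this
  have hinj : Function.Injective w := by
    intro p q hpq
    apply Subtype.ext
    apply Place.ext
    rw [hrst p, hrst q, hpq]
  have hlam0 : algebraMap E M u - algebraMap L M c ≠ 0 :=
    sub_algebraMap_ne_zero (BC.transcendental (K := L) (F := M) hu) c
  have hordu : ∀ p, ∃ e : ℤ, 0 < e ∧ (w p).ord (algebraMap E M u - algebraMap L M c) =
      -(e * eInf p) := by
    intro p
    obtain ⟨e, he, h1⟩ := exists_ram (K₀ := k) (hrst p)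
    refine ⟨e, he, ?_⟩
    have h2 : (w p).ord (algebraMap E M u) = -(e * eInf p) := by
      rw [h1, coe_eInf]; ring
    have h3 : (w p).ord (algebraMap E M u) < 0 := by
      rw [h2]
      have : (0 : ℤ) < eInf p := by exact_mod_cast eInf_pos p
      nlinarith
    rw [sub_eq_add_neg, ← map_neg, ord_add_eq_of_lt, h2]
    · simpa using hu0
    · right
      rw [ord_algebraMap]
      exact h3
  have hord : ∀ p, (eInf p : ℤ) ≤ (w p).ord (algebraMap E M u - algebraMap L M c)⁻¹ := by
    intro p
    obtain ⟨e, he, h1⟩ := hordu p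
    rw [(w p).ord_inv, h1]
    have : (0 : ℤ) < eInf p := by exact_mod_cast eInf_pos p
    nlinarith
  have hsum : finrank L⟮(algebraMap E M u - algebraMap L M c)⁻¹⟯ M ≤ ∑ p : InfPl k u, eInf p := by
    rw [adjoin_inv_eq, adjoin_sub_eq, sum_eInf hu]
    exact (finrank_adjoin_le hu).2
  have htr : Transcendental L (algebraMap E M u - algebraMap L M c)⁻¹ := fun ha =>
    transcendental_sub hu c (by simpa using ha.inv)
  obtain ⟨h1, h2, h3⟩ := places_of_count htr w hinj eInf eInf_pos hord hsum
  refine ⟨w, hinj, hw, hrst, ?_, h3, ?_⟩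
  · intro p
    have := h2 p
    rw [(w p).ord_inv] at this
    omega
  · intro v hv
    apply h1
    rw [v.ord_inv]
    omega

end Fermat.Agent.AVDc
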