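import Fermat.Agent.FunField.AlgClosed

/-!
# Function fields of one variable and transcendence degree
-/

set_option autoImplicit false

noncomputable section

universe u

open AlgebraicCurve Module IntermediateField
open Fermat.Agent.FunField Fermat.Agent.FunField.PlaceLemmas

namespace Fermat.Agent.AVDc

theorem isFF_of_trdeg_eq_one {K F : Type*} [Field K] [Field F] [Algebra K F]
    [Algebra.EssFiniteType K F] (h : Algebra.trdeg K F = 1) : IsFF K F := by
  obtain ⟨s, hs⟩ := exists_isTranscendenceBasis K F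
  have h1 := hs.cardinalMk_eq_trdeg
  rw [h, Cardinal.mk_set_eq_one_iff] at h1
  obtain ⟨x, rfl⟩ := h1
  have h2 : AlgebraicIndependent K (Subtype.val : ({x} : Set F) → F) := hs.1
  have hx : Transcendental K x := algebraicIndependent_unique_type_iff.mp h2
  have h3 := hs.isAlgebraic_field
  rw [Subtype.range_coe] at h3
  refine ⟨⟨x, hx, ?_⟩⟩
  have h4 : Algebra.EssFiniteType K⟮x⟯ F := Algebra.EssFiniteType.of_comp K K⟮x⟯ F
  exact finiteDimensional_of_essFiniteType_of_isAlgebraic K⟮x⟯ F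

theorem trdeg_eq_one_of_isFF {K F : Type*} [Field K] [Field F] [Algebra K F] [h : IsFF K F] :
    Algebra.trdeg K F = 1 := by
  obtain ⟨x, hx, hfin⟩ := h.exists_transcendental
  have h1 : IsTranscendenceBasis K (Subtype.val : ({x} : Set F) → F) := by
    rw [isTranscendenceBasis_iff_algebraicIndependent_isAlgebraic]
    refine ⟨algebraicIndependent_unique_type_iff.mpr hx, ?_⟩
    rw [Subtype.range_coe]
    refine ⟨fun y => ?_⟩
    rw [← isAlgebraic_adjoin_iff]
    exact Algebra.IsAlgebraic.isAlgebraic y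
  rw [← h1.cardinalMk_eq_trdeg]
  exact Cardinal.mk_singleton x

theorem adjoin_gen_eq_top {K F : Type*} [Field K] [Field F] [Algebra K F] (x : F) :
    IntermediateField.adjoin K ({AdjoinSimple.gen K x} : Set K⟮x⟯) = ⊤ := by
  apply IntermediateField.map_injective K⟮x⟯.val
  rw [adjoin_map, Set.image_singleton, ← AlgHom.fieldRange_eq_map, fieldRange_val]
  rfl

theorem trdeg_adjoin_simple_le {K F : Type*} [Field K] [Field F] [Algebra K F] (x : F) :
    Algebra.trdeg K K⟮x⟯ ≤ 1 := by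
  have h : Algebra.IsAlgebraic (Algebra.adjoin K ({AdjoinSimple.gen K x} : Set K⟮x⟯)) K⟮x⟯ := by
    refine ⟨fun y => ?_⟩
    rw [← isAlgebraic_adjoin_iff]
    have htop : IntermediateField.adjoin K ({AdjoinSimple.gen K x} : Set K⟮x⟯) = ⊤ :=
      adjoin_gen_eq_top x
    rw [htop]
    exact isAlgebraic_algebraMap (⟨y, trivial⟩ : (⊤ : IntermediateField K K⟮x⟯))
  have h2 := Algebra.IsAlgebraic.trdeg_le_cardinalMk K ({AdjoinSimple.gen K x} : Set K⟮x⟯)
  exact h2.trans (Cardinal.mk_singleton _).le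

theorem isFF_adjoin_simple {K F : Type*} [Field K] [Field F] [Algebra K F] {x : F}
    (hx : Transcendental K x) : IsFF K K⟮x⟯ := by
  refine ⟨⟨AdjoinSimple.gen K x, ?_, ?_⟩⟩
  · intro h
    apply hx
    have := h.algebraMap (A := F)
    rwa [AdjoinSimple.algebraMap_gen] at this
  · have htop : IntermediateField.adjoin K ({AdjoinSimple.gen K x} : Set K⟮x⟯) = ⊤ :=
      adjoin_gen_eq_top x
    rw [htop]
    exact Module.Finite.of_surjective (Algebra.linearMap (⊤ : IntermediateField K K⟮x⟯) K⟮x⟯)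
      (fun y => ⟨⟨y, trivial⟩, rfl⟩)

open Algebra in
/-- A two-variable function field is a one-variable function field over `F₀(Φ)`. -/
theorem isFF_adjoin_of_two {F₀ : Type*} {L M : Type u} [Field F₀] [Field L] [Field M]
    [Algebra F₀ L] [Algebra L M] [Algebra F₀ M] [IsScalarTower F₀ L M] [IsFF F₀ L] [IsFF L M]
    {Φ : M} (hΦ : Transcendental F₀ Φ) : IsFF F₀⟮Φ⟯ M := by
  have h1 := isFF_adjoin_simple hΦ
  have e1 : Algebra.EssFiniteType F₀ M := Algebra.EssFiniteType.comp F₀ L M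
  have e2 : Algebra.EssFiniteType F₀⟮Φ⟯ M := Algebra.EssFiniteType.of_comp F₀ F₀⟮Φ⟯ M
  apply isFF_of_trdeg_eq_one
  have t1 := trdeg_add_eq F₀ L (A := M)
  have t2 := trdeg_add_eq F₀ F₀⟮Φ⟯ (A := M)
  rw [trdeg_eq_one_of_isFF, trdeg_eq_one_of_isFF] at t1
  rw [trdeg_eq_one_of_isFF (K := F₀) (F := F₀⟮Φ⟯), ← t1] at t2
  exact Cardinal.eq_of_add_eq_add_left t2 Cardinal.one_lt_aleph0

end Fermat.Agent.AVDc
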