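import Fermat.Agent.AVDc.OneSide
import Fermat.Agent.AVDc.Trdeg

/-!
# Residues of the two copies of `E`; use of hypothesis (Z)
-/

set_option autoImplicit false
set_option linter.unusedSectionVars false

noncomputable section

universe u

open AlgebraicCurve Module IntermediateField
open Fermat.Agent.FunField Fermat.Agent.FunField.PlaceLemmas Fermat.Agent.BaseChangeFF

namespace Fermat.Agent.AVDc

section vsub

variable {M : Type*} [Field M] {V : ValuationSubring M}

theorem mem_nonunits_iff_mem {x : M} : x ∈ V.nonunits ↔ ∃ h : x ∈ V, ¬ IsUnit (⟨x, h⟩ : V) := by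
  rw [ValuationSubring.mem_nonunits_iff_exists_mem_maximalIdeal]
  rfl

theorem mem_of_mem_nonunits {x : M} (h : x ∈ V.nonunits) : x ∈ V := (mem_nonunits_iff_mem.mp h).1

theorem isUnit_of_inv_mem {x : M} (h : x ∈ V) (hx : x ≠ 0) (h' : x⁻¹ ∈ V) :
    IsUnit (⟨x, h⟩ : V) :=
  IsUnit.of_mul_eq_one ⟨x⁻¹, h'⟩ (Subtype.ext (mul_inv_cancel₀ hx))

theorem inv_mem_of_isUnit {x : M} {h : x ∈ V} (hu : IsUnit (⟨x, h⟩ : V)) : x⁻¹ ∈ V := by
  obtain ⟨y, hy⟩ := hu.exists_right_inv
  have h2 : x * (y : M) = 1 := congrArg Subtype.val hy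
  have h3 : x⁻¹ = (y : M) := by
    rw [inv_eq_of_mul_eq_one_right h2]
  rw [h3]; exact y.2

/-- a nonzero element of a subfield of `V` is not a nonunit -/
theorem not_mem_nonunits_of_inv_mem {x : M} (hx : x ≠ 0) (h' : x⁻¹ ∈ V) : x ∉ V.nonunits := by
  intro h
  obtain ⟨h1, h2⟩ := mem_nonunits_iff_mem.mp h
  exact h2 (isUnit_of_inv_mem h1 hx h')

theorem mem_nonunits_iff_res {κ' : Type*} [Field κ'] (r : V →+* κ') [IsLocalHom r] {x : M}
    (h : x ∈ V) : x ∈ V.nonunits ↔ r ⟨x, h⟩ = 0 := by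
  rw [mem_nonunits_iff_mem]
  constructor
  · rintro ⟨h1, h2⟩
    by_contra h3
    exact h2 (isUnit_of_map_unit r _ (isUnit_iff_ne_zero.mpr h3))
  · intro h1
    refine ⟨h, fun h2 => ?_⟩
    have := h2.map r
    rw [h1] at this
    exact not_isUnit_zero this

theorem sub_mem_nonunits_iff_res {κ' : Type*} [Field κ'] (r : V →+* κ') [IsLocalHom r] {x y : M}
    (hx : x ∈ V) (hy : y ∈ V) : x - y ∈ V.nonunits ↔ r ⟨x, hx⟩ = r ⟨y, hy⟩ := by
  rw [mem_nonunits_iff_res r (sub_mem hx hy), ← sub_eq_zero (a := r ⟨x, hx⟩), ← map_sub]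
  rfl

end vsub

section emb

variable {k E M : Type*} [Field k] [Field E] [Field M] [Algebra k E] [Algebra k M]

/-- If `V` does not contain `i(E)`, then the residues of `i(E) ∩ V` are in `k`. -/
theorem res_const [IsAlgClosed k] [IsFF k E] (i : E →ₐ[k] M) {V : ValuationSubring M}
    (hk : ∀ c : k, algebraMap k M c ∈ V) (hne : ¬ ∀ x, i x ∈ V) {x : E} (hx : i x ∈ V) :
    ∃ c : k, i x - algebraMap k M c ∈ V.nonunits := by
  let V₁ : ValuationSubring E := V.comap (i : E →+* M)
  have hmem : ∀ y : E, y ∈ V₁ ↔ i y ∈ V := fun y => Iff.rfl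
  have hk₁ : ∀ c : k, algebraMap k E c ∈ V₁ := by
    intro c
    rw [hmem, i.commutes]
    exact hk c
  have hV₁ : V₁ ≠ ⊤ := by
    intro h
    apply hne
    intro y
    rw [← hmem, h]
    trivial
  let p : Place k E := placeOfValuationSubring V₁ hk₁ hV₁
  have hxp : x ∈ geSub p 0 := mem_geSub_zero.mpr ((hmem x).mpr hx)
  obtain ⟨c, hc⟩ := exists_sub_mem p hxp
  refine ⟨c, ?_⟩
  rw [mem_geSub_one_iff] at hc
  by_contra hcon
  have h1 : i x - algebraMap k M c ∈ V := sub_mem hx (hk c)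
  have h2 : IsUnit (⟨_, h1⟩ : V) := by
    by_contra h3
    exact hcon (mem_nonunits_iff_mem.mpr ⟨h1, h3⟩)
  have h3 := inv_mem_of_isUnit h2
  rw [← i.commutes, ← map_sub, ← map_inv₀, ← hmem] at h3
  have h4 : x - algebraMap k E c ≠ 0 := by
    intro h0
    have h5 : (⟨i x - algebraMap k M c, h1⟩ : V) = 0 := by
      apply Subtype.ext
      show i x - algebraMap k M c = 0
      rw [← i.commutes, ← map_sub, h0, map_zero]
    rw [h5] at h2
    exact not_isUnit_zero h2
  exact not_mem_nonunits_of_inv_mem h4 h3 hc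

/-- Residues of `i(E) ⊆ V` lie in any algebraically closed subfield containing the one of `u`. -/
theorem res_alg {κ' : Type*} [Field κ'] [Algebra k κ'] (e : E →ₐ[k] κ') {u : E}
    [Algebra.IsAlgebraic k⟮u⟯ E] (T : IntermediateField k κ')
    (hT : ∀ z : κ', IsAlgebraic T z → z ∈ T) (hu : e u ∈ T) (x : E) : e x ∈ T := by
  apply hT
  have hle : ∀ c ∈ k⟮u⟯, e c ∈ T := by
    have : k⟮u⟯ ≤ T.comap e := by
      rw [adjoin_simple_le_iff]
      exact hu
    exact fun c hc => this hc
  let f : k⟮u⟯ →+* T :=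
    { toFun := fun c => ⟨e c, hle c c.2⟩
      map_one' := by ext; simp
      map_mul' := by intro a b; ext; simp
      map_zero' := by ext; simp
      map_add' := by intro a b; ext; simp }
  exact IsAlgebraic.ringHom_of_comp_eq (S := T) f (e : E →+* κ')
    (Algebra.IsAlgebraic.isAlgebraic (R := k⟮u⟯) x) f.injective (by ext c; rfl)

end emb

section ff

/-- residues of a proper valuation ring of `L = E·F₀` containing `F₀` are algebraic over `F₀` -/
theorem res_algebraic_of_ff {F₀ L M : Type*} [Field F₀] [Field L] [Field M] [Algebra F₀ L]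
    [IsFF F₀ L] (a : L →+* M) {V : ValuationSubring M} (hF : ∀ c : F₀, a (algebraMap F₀ L c) ∈ V)
    (hne : ¬ ∀ x, a x ∈ V) {κ' : Type*} [Field κ'] [Algebra F₀ κ'] (r : V →+* κ')
    (hr : ∀ c : F₀, r ⟨a (algebraMap F₀ L c), hF c⟩ = algebraMap F₀ κ' c) [IsLocalHom r]
    {x : L} (hx : a x ∈ V) : IsAlgebraic F₀ (r ⟨a x, hx⟩) := by
  let V₁ : ValuationSubring L := V.comap a
  have hmem : ∀ y : L, y ∈ V₁ ↔ a y ∈ V := fun y => Iff.rfl
  have hV₁ : V₁ ≠ ⊤ := by
    intro h
    apply hne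
    intro y
    rw [← hmem, h]
    trivial
  let p : Place F₀ L := placeOfValuationSubring V₁ hF hV₁
  have hfin : Module.Finite F₀ p.ResidueField := finite_residueField p
  have halg : IsAlgebraic F₀ (IsLocalRing.residue p.toValuationSubring ⟨x, hx⟩) :=
    Algebra.IsAlgebraic.isAlgebraic _
  obtain ⟨q, hq0, hq⟩ := halg
  refine ⟨q, hq0, ?_⟩
  -- `q(x)` is a nonunit of `V₁`
  have h1 : Polynomial.aeval x q ∈ V₁.nonunits := by
    have h2 : IsLocalRing.residue p.toValuationSubring
        (Polynomial.aeval (⟨x, hx⟩ : p.toValuationSubring) q) = 0 := by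
      have h3 := Polynomial.aeval_algebraMap_apply p.ResidueField
        (⟨x, hx⟩ : p.toValuationSubring) q
      rw [← IsLocalRing.ResidueField.algebraMap_eq, ← h3]
      exact hq
    rw [IsLocalRing.residue_eq_zero_iff, IsLocalRing.mem_maximalIdeal] at h2
    have h4 : ((Polynomial.aeval (⟨x, hx⟩ : p.toValuationSubring) q :
        p.toValuationSubring) : L) = Polynomial.aeval x q :=
      (Polynomial.aeval_algebraMap_apply L (⟨x, hx⟩ : p.toValuationSubring) q).symm
    rw [mem_nonunits_iff_mem]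
    have h5 : Polynomial.aeval x q ∈ V₁ := h4 ▸ (Polynomial.aeval (⟨x, hx⟩ :
      p.toValuationSubring) q).2
    refine ⟨h5, fun hu => h2 ?_⟩
    have h6 : (⟨Polynomial.aeval x q, h5⟩ : V₁) =
        Polynomial.aeval (⟨x, hx⟩ : p.toValuationSubring) q := Subtype.ext h4.symm
    rw [← h6]
    exact hu
  obtain ⟨h5, h6⟩ := mem_nonunits_iff_mem.mp h1
  have h7 : r ⟨a (Polynomial.aeval x q), h5⟩ = 0 := by
    by_contra h8
    have h9 : IsUnit (⟨a (Polynomial.aeval x q), h5⟩ : V) :=
      isUnit_of_map_unit r _ (isUnit_iff_ne_zero.mpr h8)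
    have h10 := inv_mem_of_isUnit h9
    rw [← map_inv₀, ← hmem] at h10
    by_cases h11 : Polynomial.aeval x q = 0
    · have h12 : (⟨a (Polynomial.aeval x q), h5⟩ : V) = 0 := by
        apply Subtype.ext
        show a (Polynomial.aeval x q) = 0
        rw [h11, map_zero]
      rw [h12, map_zero] at h8
      exact h8 rfl
    · exact h6 (isUnit_of_inv_mem h5 h11 h10)
  -- compute
  let ρ : V₁ →+* κ' :=
    r.comp ({ toFun := fun y => ⟨a y, y.2⟩
              map_one' := by ext; simp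
              map_mul' := by intro b c; ext; simp
              map_zero' := by ext; simp
              map_add' := by intro b c; ext; simp } : V₁ →+* V)
  have h8 : ρ ⟨Polynomial.aeval x q, h5⟩ = Polynomial.aeval (ρ ⟨x, hx⟩) q := by
    have h9 : (⟨Polynomial.aeval x q, h5⟩ : V₁) =
        Polynomial.eval₂ ((algebraMap F₀ L).codRestrict V₁.toSubring hF) ⟨x, hx⟩ q := by
      apply Subtype.ext
      show Polynomial.aeval x q = V₁.subtype _
      rw [Polynomial.hom_eval₂]
      rfl
    rw [h9, Polynomial.hom_eval₂, Polynomial.aeval_def]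
    congr 1
    ext c
    exact hr c
  exact h8.symm.trans h7

end ff

end Fermat.Agent.AVDc
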